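/-
CFT program, layer Global: the local component `A_q(Z) ⧸ m` of a Galois pair at an unramified
place, and its norm group (helper65, leaf [AUX.N2], local part).

* `ordZ_mk_eq_divq` : the normalised valuation of the `m`-component of a unit of `A_q(Z)` is its
  divisor at the prime `placeBelow m`;
* `isUnram_comp` : if there is a `Γ`-invariant element of `Z` which is a uniformizer at
  `placeBelow m`, the local component is unramified over the fixed field of the decomposition
  group;
* `comp_norm_of_dvd` : in that case a `D`-invariant unit of the component whose valuation is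
  divisible by `|D|` is a `D`-norm.
-/
import Mathlib
import Fermat.Agent.CFT.Global.Defs
import Fermat.Agent.CFT.Global.CountDict
import Fermat.Agent.CFT.Global.QBridgeDiv
import Fermat.Agent.CFT.Global.SemiLocalGalois
import Fermat.Agent.CFT.Bridge.CompDict
import Fermat.Agent.CFT.Bridge.LocComp
import Fermat.Agent.CFT.Local.Provide2

set_option autoImplicit false
set_option linter.style.haveILetI false
set_option linter.unusedSectionVars false

noncomputable section

namespace Fermat.Agent.CFT.Global.BlockNorm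

open TensorProduct NumberField IsDedekindDomain
open Fermat.Agent.CFT Fermat.Agent.CFT.Global Fermat.Agent.CFT.Global.CountDict
open scoped Fermat.Agent.CFT.Global

attribute [local instance] Algebra.TensorProduct.rightAlgebra Ideal.Quotient.field

section Component

variable (q : ℕ) [Fact q.Prime] {Z : Type} [Field Z] [NumberField Z]
  (m : MaximalSpectrum (SemiLocal Z q))

/-- The local component is finite over `ℚ_[q]`. -/
theorem comp_finite : FiniteDimensional ℚ_[q] (SemiLocal Z q ⧸ m.asIdeal) := by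
  have := CountDict.finite_right q Z
  exact Module.Finite.of_surjective (Ideal.Quotient.mkₐ ℚ_[q] m.asIdeal).toLinearMap
    (Ideal.Quotient.mkₐ_surjective ℚ_[q] m.asIdeal)

/-- The map `Z → A_q(Z) ⧸ m`. -/
def compIota : Z →+* SemiLocal Z q ⧸ m.asIdeal :=
  (Ideal.Quotient.mk m.asIdeal).comp
    (Algebra.TensorProduct.includeLeft : Z →ₐ[ℚ] Z ⊗[ℚ] ℚ_[q]).toRingHom

theorem compIota_apply (x : Z) :
    compIota q m x = Ideal.Quotient.mk m.asIdeal (x ⊗ₜ[ℚ] (1 : ℚ_[q])) := rfl

theorem comp_gen : Algebra.adjoin ℚ_[q] (Set.range (compIota q m)) = ⊤ :=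
  Bridge.CompDict.adjoin_eq_top_of_surjective q Z (SemiLocal Z q ⧸ m.asIdeal)
    (Ideal.Quotient.mk m.asIdeal) Ideal.Quotient.mk_surjective (quot_compat m)

/-- The centre of the local component is the prime below `m`. -/
theorem place_eq :
    haveI := comp_finite q m
    Bridge.CompDict.place q Z (SemiLocal Z q ⧸ m.asIdeal) (compIota q m) = placeBelow m := by
  haveI := comp_finite q m
  apply HeightOneSpectrum.ext
  apply Ideal.ext
  intro y
  rw [Bridge.CompDict.place_asIdeal, Bridge.CompDict.mem_center_iff_spectralNorm, mem_placeBelow]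
  rfl

/-- The valuation of the component at a global element. -/
theorem ordZ_compIota (x : Zˣ) :
    Local.ordZ q (SemiLocal Z q ⧸ m.asIdeal) (Units.map (compIota q m : Z →* _) x) =
      QBridge.ordZ (placeBelow m) x := by
  haveI := comp_finite q m
  have h := Bridge.CompDict.ordZ_unitsMap q Z (SemiLocal Z q ⧸ m.asIdeal) (compIota q m)
    (comp_gen q m) x
  rw [place_eq q m] at h
  exact h

/-- Units of the maximal order map to units of the integers of the component. -/
theorem mk_mem_unitGroup {u : (SemiLocal Z q)ˣ} (hu : u ∈ QBridge.orderUnits q Z) :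
    Units.map (Ideal.Quotient.mk m.asIdeal : SemiLocal Z q →* _) u ∈
      Local.unitGroup q (SemiLocal Z q ⧸ m.asIdeal) := by
  haveI := comp_finite q m
  refine ⟨?_, ?_⟩
  · rw [Local.OrdCore.mem_integers_iff_spectralNorm]
    exact sn_le_one_of_isIntegralElem (Ideal.Quotient.mk m.asIdeal) (quot_compat m)
      (QBridge.isIntegralElem_of_mem_maxOrder hu.1)
  · rw [Local.OrdCore.mem_integers_iff_spectralNorm, ← map_inv]
    exact sn_le_one_of_isIntegralElem (Ideal.Quotient.mk m.asIdeal) (quot_compat m)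
      (QBridge.isIntegralElem_of_mem_maxOrder hu.2)

/-- **The valuation of the `m`-component of a unit of `A_q(Z)` is its divisor at the prime
below `m`.** -/
theorem ordZ_mk_eq_divq (a : (SemiLocal Z q)ˣ) :
    Local.ordZ q (SemiLocal Z q ⧸ m.asIdeal)
        (Units.map (Ideal.Quotient.mk m.asIdeal : SemiLocal Z q →* _) a) =
      Multiplicative.toAdd (QBridge.divq q Z a) ⟨placeBelow m, natCast_mem_placeBelow m⟩ := by
  haveI := comp_finite q m
  obtain ⟨a₀, u, hu, hx⟩ := QBridge.exists_lamq_mul a
  rw [QBridge.divq_of_eq hu hx, hx, map_mul, Local.OrdCore.ordZ_mul,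
    (Local.OrdCore.mem_unitGroup_iff_ordZ q _ _).mp (mk_mem_unitGroup q m hu), add_zero]
  exact ordZ_compIota q m a₀

end Component

section Galois

variable (Γ : Type) [Group Γ] (Z : Type) [Field Z] [NumberField Z] [MulSemiringAction Γ Z]
variable (q : ℕ) [Fact q.Prime] (m : MaximalSpectrum (SemiLocal Z q))

/-- The decomposition group acts on the component by `ℚ_[q]`-algebra automorphisms. -/
theorem decomp_smul_algebraMap' (d : decompGroup Γ Z q m.asIdeal) (c : ℚ_[q]) :
    d • algebraMap ℚ_[q] (SemiLocal Z q ⧸ m.asIdeal) c =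
      algebraMap ℚ_[q] (SemiLocal Z q ⧸ m.asIdeal) c := by
  rw [← quot_compat m c, decomp_smul_mk, smul_tmul_eq, smul_one]

/-- The image of a `Γ`-invariant element is invariant under the decomposition group. -/
theorem decomp_smul_compIota (d : decompGroup Γ Z q m.asIdeal) (x : Z)
    (hx : ∀ γ : Γ, γ • x = x) : d • compIota q m x = compIota q m x := by
  rw [compIota_apply, decomp_smul_mk, smul_tmul_eq, hx]

variable [Finite Γ]

/-- **Unramifiedness of the local component.**  If some `Γ`-invariant element of `Z` is a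
uniformizer at the prime below `m`, then the local component `A_q(Z) ⧸ m` is unramified over
the fixed field of the decomposition group. -/
theorem isUnram_comp (π : Zˣ) (hfix : ∀ γ : Γ, γ • (π : Z) = π)
    (hord : QBridge.ordZ (placeBelow m) π = 1) :
    letI := Bridge.LocComp.fixAlgebra q (decompGroup Γ Z q m.asIdeal)
      (SemiLocal Z q ⧸ m.asIdeal) (decomp_smul_algebraMap' Γ Z q m)
    Local.IsUnram q (FixedPoints.subfield (decompGroup Γ Z q m.asIdeal)
      (SemiLocal Z q ⧸ m.asIdeal)) (SemiLocal Z q ⧸ m.asIdeal) := by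
  letI := Bridge.LocComp.fixAlgebra q (decompGroup Γ Z q m.asIdeal)
    (SemiLocal Z q ⧸ m.asIdeal) (decomp_smul_algebraMap' Γ Z q m)
  haveI := comp_finite q m
  intro x
  have hne : (⟨compIota q m (π : Z), fun d => decomp_smul_compIota Γ Z q m d _ hfix⟩ :
      FixedPoints.subfield (decompGroup Γ Z q m.asIdeal) (SemiLocal Z q ⧸ m.asIdeal)) ≠ 0 := by
    intro h
    have h1 : compIota q m (π : Z) = 0 := congrArg Subtype.val h
    exact (map_ne_zero (compIota q m)).mpr π.ne_zero h1
  refine ⟨(Units.mk0 _ hne) ^ (Local.ordZ q (SemiLocal Z q ⧸ m.asIdeal) x), ?_⟩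
  have h2 : Units.map (algebraMap (FixedPoints.subfield (decompGroup Γ Z q m.asIdeal)
      (SemiLocal Z q ⧸ m.asIdeal)) (SemiLocal Z q ⧸ m.asIdeal)).toMonoidHom (Units.mk0 _ hne) =
      Units.map (compIota q m : Z →* _) π := Units.ext rfl
  rw [Local.OrdCore.mem_unitGroup_iff_ordZ, Local.OrdCore.ordZ_mul, Local.OrdCore.ordZ_inv,
    map_zpow, Local.OrdCore.ordZ_zpow, h2, ordZ_compIota, hord]
  ring

/-- **The norm group of the local component at an unramified place.**  If some `Γ`-invariant
element of `Z` is a uniformizer at the prime below `m`, then every unit `x` of the local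
component which is invariant under the decomposition group `D` and whose normalised valuation
is divisible by `|D|` is a `D`-norm. -/
theorem comp_norm_of_dvd [FaithfulSMul Γ Z] [Fintype (decompGroup Γ Z q m.asIdeal)]
    (π : Zˣ) (hfix : ∀ γ : Γ, γ • (π : Z) = π) (hord : QBridge.ordZ (placeBelow m) π = 1)
    (x : (SemiLocal Z q ⧸ m.asIdeal)ˣ)
    (hx : ∀ d : decompGroup Γ Z q m.asIdeal, d • (x : SemiLocal Z q ⧸ m.asIdeal) = x)
    (hdvd : (Fintype.card (decompGroup Γ Z q m.asIdeal) : ℤ) ∣
      Local.ordZ q (SemiLocal Z q ⧸ m.asIdeal) x) :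
    ∃ w : (SemiLocal Z q ⧸ m.asIdeal)ˣ,
      ∏ d : decompGroup Γ Z q m.asIdeal, d • (w : SemiLocal Z q ⧸ m.asIdeal) = x := by
  letI := Bridge.LocComp.fixAlgebra q (decompGroup Γ Z q m.asIdeal)
    (SemiLocal Z q ⧸ m.asIdeal) (decomp_smul_algebraMap' Γ Z q m)
  haveI := comp_finite q m
  haveI := Bridge.LocComp.fix_isScalarTower q (decompGroup Γ Z q m.asIdeal)
    (SemiLocal Z q ⧸ m.asIdeal) (decomp_smul_algebraMap' Γ Z q m)
  haveI := Bridge.LocComp.fix_finiteDimensional q (decompGroup Γ Z q m.asIdeal)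
    (SemiLocal Z q ⧸ m.asIdeal) (decomp_smul_algebraMap' Γ Z q m)
  haveI : FaithfulSMul (decompGroup Γ Z q m.asIdeal) (SemiLocal Z q ⧸ m.asIdeal) :=
    SemiLocalGalois.faithfulSMul_decomp Γ Z q m.asIdeal m.isMaximal
  have hur := isUnram_comp Γ Z q m π hfix hord
  -- `x` as a unit of the fixed field
  have hne : (⟨(x : SemiLocal Z q ⧸ m.asIdeal), hx⟩ :
      FixedPoints.subfield (decompGroup Γ Z q m.asIdeal) (SemiLocal Z q ⧸ m.asIdeal)) ≠ 0 := by
    intro h
    exact x.ne_zero (congrArg Subtype.val h)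
  have hx₀ : Local.OrdCore.unitsIncl (FixedPoints.subfield (decompGroup Γ Z q m.asIdeal)
      (SemiLocal Z q ⧸ m.asIdeal)) (SemiLocal Z q ⧸ m.asIdeal) (Units.mk0 _ hne) = x :=
    Units.ext rfl
  -- the valuation of `x` over the fixed field
  obtain ⟨e, he, -, hord'⟩ := Local.OrdCore.exists_ramIdx q
    (FixedPoints.subfield (decompGroup Γ Z q m.asIdeal) (SemiLocal Z q ⧸ m.asIdeal))
    (SemiLocal Z q ⧸ m.asIdeal)
  have he1 : e = 1 := (Local.OrdCore.isUnram_iff_ramIdx q _ _ he hord').mp hur
  have h1 := hord' (Units.mk0 _ hne)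
  rw [hx₀, he1, Nat.cast_one, one_mul] at h1
  have hdvd' : (Module.finrank (FixedPoints.subfield (decompGroup Γ Z q m.asIdeal)
      (SemiLocal Z q ⧸ m.asIdeal)) (SemiLocal Z q ⧸ m.asIdeal) : ℤ) ∣
      Local.ordZ q (FixedPoints.subfield (decompGroup Γ Z q m.asIdeal)
        (SemiLocal Z q ⧸ m.asIdeal)) (Units.mk0 _ hne) := by
    rw [FixedPoints.finrank_eq_card, ← h1]
    exact hdvd
  obtain ⟨w, hw⟩ := (Local.Provide2.unramNormIff q _ _ hur (Units.mk0 _ hne)).2 hdvd'
  refine ⟨w, ?_⟩
  have h2 := Algebra.norm_eq_prod_automorphisms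
    (FixedPoints.subfield (decompGroup Γ Z q m.asIdeal) (SemiLocal Z q ⧸ m.asIdeal))
    (w : SemiLocal Z q ⧸ m.asIdeal)
  rw [hw] at h2
  have h3 : algebraMap (FixedPoints.subfield (decompGroup Γ Z q m.asIdeal)
      (SemiLocal Z q ⧸ m.asIdeal)) (SemiLocal Z q ⧸ m.asIdeal)
      ((Units.mk0 _ hne : (FixedPoints.subfield (decompGroup Γ Z q m.asIdeal)
        (SemiLocal Z q ⧸ m.asIdeal))ˣ) : FixedPoints.subfield (decompGroup Γ Z q m.asIdeal)
        (SemiLocal Z q ⧸ m.asIdeal)) = (x : SemiLocal Z q ⧸ m.asIdeal) := rfl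
  rw [h3] at h2
  rw [h2]
  exact Fintype.prod_equiv (FixedPoints.toAlgAutMulEquiv (decompGroup Γ Z q m.asIdeal)
    (SemiLocal Z q ⧸ m.asIdeal)).toEquiv _ _ (fun d => rfl)

end Galois

end Fermat.Agent.CFT.Global.BlockNorm
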