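/-
CFT program, layer Global: Shapiro's lemma for norms of a block (helper65, leaf [AUX.N2], formal
part).

The block `orbitRep G L q m = ∏_{w' ∈ G·w} L_{w'}ˣ` is coinduced from the local component
`localCompRep G L q m = L_wˣ` of the decomposition group `D`.  Hence a `G`-invariant element `a`
of the block is a `G`-norm as soon as its `w`-component is a `D`-norm.
-/
import Mathlib
import Fermat.Agent.CFT.Global.Defs
import Fermat.Agent.CFT.Global.SemiLocalGalois

set_option autoImplicit false

noncomputable section

namespace Fermat.Agent.CFT.Global.BlockNorm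

open Fermat.Agent.CFT.Global
open scoped Fermat.Agent.CFT.Global

variable (G L : Type) [Group G] [Fintype G] [Field L] [NumberField L] [MulSemiringAction G L]
variable (q : ℕ) [Fact q.Prime] (m : Ideal (SemiLocal L q))

/-- **Shapiro for norms.**  A `G`-invariant element `a` of the block of `m` whose component at
`m` is a norm from the decomposition group is a `G`-norm of the block. -/
theorem shapiro_norm (hm : m.IsMaximal) [Fintype (decompGroup G L q m)]
    (a : (orbitRep G L q m).V)
    (hfix : ∀ g : G, (orbitRep G L q m).ρ g a = a) (w : (localCompRep G L q m).V)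
    (hw : ∑ d : decompGroup G L q m, (localCompRep G L q m).ρ d w = (orbitProj G L q m).hom a) :
    ∃ b : (orbitRep G L q m).V, (orbitRep G L q m).ρ.norm b = a := by
  classical
  -- the coinduced function supported on the decomposition group
  let F : G → (localCompRep G L q m).V := fun g =>
    ∑ d : decompGroup G L q m, if (d : G) = g then (localCompRep G L q m).ρ d w else 0
  have hF : ∀ (h : decompGroup G L q m) (g : G),
      F ((h : G) * g) = (localCompRep G L q m).ρ h (F g) := by
    intro h g
    show (∑ d : decompGroup G L q m,
        if (d : G) = (h : G) * g then (localCompRep G L q m).ρ d w else 0) =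
      (localCompRep G L q m).ρ h (∑ d : decompGroup G L q m,
        if (d : G) = g then (localCompRep G L q m).ρ d w else 0)
    rw [map_sum, ← Equiv.sum_comp (Equiv.mulLeft h)]
    refine Finset.sum_congr rfl (fun d _ => ?_)
    have h1 : (((Equiv.mulLeft h) d : decompGroup G L q m) : G) = (h : G) * (d : G) := rfl
    rw [h1]
    by_cases hd : (d : G) = g
    · rw [if_pos hd, if_pos (by rw [hd])]
      show (localCompRep G L q m).ρ (h * d) w = _
      rw [map_mul]
      rfl
    · rw [if_neg hd, if_neg (fun h' => hd (mul_left_cancel h')), map_zero]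
  obtain ⟨b, hb⟩ := SemiLocalGalois.orbit_surj G L q m hm F hF
  refine ⟨b, ?_⟩
  rw [← sub_eq_zero]
  apply SemiLocalGalois.orbit_inj G L q m
  intro g
  have h1 : (orbitRep G L q m).ρ g ((orbitRep G L q m).ρ.norm b - a) =
      (orbitRep G L q m).ρ.norm b - a := by
    rw [map_sub, hfix g, Representation.self_norm_apply]
  rw [h1, map_sub, sub_eq_zero, ← hw]
  have h2 : (orbitProj G L q m).hom ((orbitRep G L q m).ρ.norm b) =
      ∑ g : G, (orbitProj G L q m).hom ((orbitRep G L q m).ρ g b) := by
    rw [Representation.norm, LinearMap.sum_apply, map_sum]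
  rw [h2]
  simp_rw [hb]
  show (∑ g : G, ∑ d : decompGroup G L q m,
      if (d : G) = g then (localCompRep G L q m).ρ d w else 0) = _
  rw [Finset.sum_comm]
  refine Finset.sum_congr rfl (fun d _ => ?_)
  rw [Finset.sum_ite_eq]
  simp

/-- **Shapiro for norms**, with the local hypothesis in multiplicative form: the component of
`a` at `m` is the product of the conjugates of a unit `w` of the local component under the
decomposition group. -/
theorem shapiro_norm_units (hm : m.IsMaximal) [Fintype (decompGroup G L q m)]
    (a : (orbitRep G L q m).V)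
    (hfix : ∀ g : G, (orbitRep G L q m).ρ g a = a) (w : (SemiLocal L q ⧸ m)ˣ)
    (hw : ∏ d : decompGroup G L q m, d • (w : SemiLocal L q ⧸ m) =
      Ideal.Quotient.mk m ((Additive.toMul a.1 : (SemiLocal L q)ˣ) : SemiLocal L q)) :
    ∃ b : (orbitRep G L q m).V, (orbitRep G L q m).ρ.norm b = a := by
  refine shapiro_norm G L q m hm a hfix (Additive.ofMul w) ?_
  show (∑ d : decompGroup G L q m,
      (Additive.ofMul (Units.map (MulSemiringAction.toRingHom (decompGroup G L q m)
        (SemiLocal L q ⧸ m) d).toMonoidHom w) : Additive (SemiLocal L q ⧸ m)ˣ)) =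
    Additive.ofMul (Units.map (Ideal.Quotient.mk m).toMonoidHom
      (Additive.toMul a.1 : (SemiLocal L q)ˣ))
  apply Additive.toMul.injective
  rw [toMul_sum]
  apply Units.ext
  rw [Units.coe_prod]
  exact hw

end Fermat.Agent.CFT.Global.BlockNorm
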