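/-
CFT program, layer Global: a Galois-invariant uniformizer at a prime with trivial inertia
(helper65, leaf [AUX.N2], global input).
-/
import Mathlib
import Fermat.Agent.CFT.Global.QBridgeDiv

set_option autoImplicit false

noncomputable section

namespace Fermat.Agent.CFT.Global.BlockNorm

open NumberField IsDedekindDomain
open scoped Pointwise

variable (Γ Z : Type) [Group Γ] [Fintype Γ] [Field Z] [NumberField Z] [MulSemiringAction Γ Z]
  [FaithfulSMul Γ Z]

/-- If the inertia group of the prime `𝔙` of `𝓞 Z` in `Γ` is trivial, there is a `Γ`-invariant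
element of `Z` which is a uniformizer at `𝔙`. -/
theorem exists_fixed_uniformizer (𝔙 : HeightOneSpectrum (𝓞 Z))
    (h : 𝔙.asIdeal.inertia Γ = ⊥) :
    ∃ π : Zˣ, (∀ γ : Γ, γ • (π : Z) = π) ∧ QBridge.ordZ 𝔙 π = 1 := by
  let K := FixedPoints.subfield Γ Z
  let v : HeightOneSpectrum (𝓞 K) := HeightOneSpectrum.under (𝓞 K) 𝔙
  have hlo : 𝔙.asIdeal.LiesOver v.asIdeal := ⟨rfl⟩
  have he : v.asIdeal.ramificationIdx' 𝔙.asIdeal = 1 := by
    rw [Ideal.ramificationIdx'_eq_ramificationIdx v.asIdeal 𝔙.asIdeal v.ne_bot,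
      ← Ideal.ramificationIdxIn_eq_ramificationIdx v.asIdeal 𝔙.asIdeal Γ,
      ← Ideal.card_inertia_eq_ramificationIdxIn (G := Γ) v.asIdeal 𝔙.asIdeal, h,
      Subgroup.card_bot]
  obtain ⟨π₀, hπ₀⟩ := v.valuation_exists_uniformizer K
  have h1 := HeightOneSpectrum.valuation_liesOver Z v 𝔙 π₀
  rw [he, pow_one, hπ₀] at h1
  have hπ0 : (algebraMap K Z π₀) ≠ 0 := by
    intro h0
    rw [h0, map_zero] at h1
    exact WithZero.exp_ne_zero h1
  refine ⟨Units.mk0 (algebraMap K Z π₀) hπ0, fun γ => ?_, ?_⟩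
  · exact π₀.2 γ
  · rw [QBridge.ordZ_eq_iff]
    rw [Units.val_mk0, ← h1]

end Fermat.Agent.CFT.Global.BlockNorm
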